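/-
S58 library (architect: helper4).  **Interfaces between the blocks of S58.**

`W : WeierstrassCurve ℤ`.  The blocks communicate through
* a family `T lam : GaloisRepAdic ℤ_[lam]` (the `lam`-adic Tate modules of `W`; block `Tate`), with
  the properties `TateFrob`, `TateUnip`;
* the arithmetic of the reduced curve (`FrobCore`; blocks `Par`, `Lat`, `Cnt`);
* the comparison statements `CmpCharpoly`, `CmpRes` (block `Cmp`);
* the modular side `EigenData`, `ApBound` (block `Mod`), newform descent and stabilisation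
  (block `Stab`).
`Main` derives S58 from these `Prop`s.
-/
import Mathlib
import Fermat.Prelude.Def_WeierstrassCurve_ConductorLevel
import Fermat.Prelude.Def_FLTPrelim_ModularRep
import Fermat.Prelude.Def_GaloisRep_LocalConditions
import Fermat.Prelude.Def_GaloisRep_Adic
import Fermat.Prelude.Def_CuspForm_Newforms
import Fermat.Prelude.Def_CuspForm_HeckeGaloisRepDatum

set_option autoImplicit false

noncomputable section

namespace Fermat.Agent.S58lib

open WeierstrassCurve WeierstrassCurve.Affine.Point Polynomial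
open scoped WeierstrassCurve.Affine

/-- `ℚ̄`. -/
abbrev Qb := AlgebraicClosure ℚ
/-- `G_ℚ`. -/
abbrev GQ := Qb ≃ₐ[ℚ] Qb

/-- The curve over `ℚ`. -/
abbrev WQ (W : WeierstrassCurve ℤ) : WeierstrassCurve ℚ := W.map (Int.castRingHom ℚ)

/-! ### Block E1 (`Par`, `Lat`, `Cnt`): the Frobenius endomorphism of an elliptic curve over `𝔽_ℓ` -/

/-- the `ℓ`-power Frobenius on the points of a curve defined over `ZMod ℓ`. -/
def frobPt (ℓ : ℕ) [Fact ℓ.Prime] (E : WeierstrassCurve (ZMod ℓ)) (k : Type) [Field k]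
    [DecidableEq k] [Algebra (ZMod ℓ) k] : (E⁄k).Point →+ (E⁄k).Point :=
  WeierstrassCurve.Affine.Point.map (W' := E) (FiniteField.frobeniusAlgHom (ZMod ℓ) k)

/-- **E1 core.**  For an elliptic curve `E` over `𝔽_ℓ` and an algebraically closed `k ⊇ 𝔽_ℓ`, with
`a = ℓ + 1 - #E(𝔽_ℓ)` and `φ` the Frobenius of `E(k)`:
(R) `φ² - aφ + ℓ = 0`;  (K) a finite subgroup on which `φ = c` has at most `c² - ac + ℓ` elements. -/
def FrobCore : Prop :=
  ∀ (ℓ : ℕ) [Fact ℓ.Prime] (E : WeierstrassCurve (ZMod ℓ)), E.Δ ≠ 0 →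
    ∀ (k : Type) [Field k] [DecidableEq k] [Algebra (ZMod ℓ) k] [IsAlgClosed k],
      (∀ P : (E⁄k).Point,
        frobPt ℓ E k (frobPt ℓ E k P) - E.traceOfFrobenius • frobPt ℓ E k P + (ℓ : ℤ) • P = 0) ∧
      (∀ (c : ℤ) (X : AddSubgroup (E⁄k).Point), Finite X → (∀ P ∈ X, frobPt ℓ E k P = c • P) →
        (Nat.card X : ℤ) ≤ c ^ 2 - E.traceOfFrobenius * c + ℓ)

/-! ### Block `Tate`: the `lam`-adic Tate modules -/

/-- a family of `lam`-adic representations, one for each prime `lam`. -/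
abbrev TateFam : Type 1 := ∀ (lam : ℕ) [Fact lam.Prime], GaloisRepAdic ℤ_[lam]

/-- **Block 1.** Frobenius at a good prime `ℓ ≠ lam` has characteristic polynomial
`X² - a_ℓ(W) X + ℓ` on `T_lam`. -/
def TateFrob (W : WeierstrassCurve ℤ) (T : TateFam) : Prop :=
  ∀ (lam : ℕ) [Fact lam.Prime] (ℓ : ℕ), ℓ.Prime → ℓ ≠ lam → ¬ (ℓ : ℤ) ∣ W.Δ →
    ∀ A : ValuationSubring Qb, A.LiesOverPrime ℓ → ∀ σ : GQ, A.IsFrobeniusAt σ ℓ →
      LinearMap.charpoly ((T lam).ρ σ) =
        X ^ 2 - C (((W.apOfModel ℓ : ℤ) : ℤ_[lam])) * X + C ((ℓ : ℕ) : ℤ_[lam])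

/-- **Block E2 + good reduction.** `T_lam` (`lam` odd) is unipotent on inertia at every prime
`q ≠ lam` (for a semistable `W` with `Δ ≠ 0`). -/
def TateUnip (T : TateFam) : Prop :=
  ∀ (lam : ℕ) [Fact lam.Prime], lam ≠ 2 → ∀ q : ℕ, q.Prime → q ≠ lam →
    (T lam).IsUnipotentOnInertiaAt q

/-- **Block E2 (input of `TateUnip`).** At a multiplicative prime `q` there is, for every odd `n`
prime to `q`, a point of exact order `n` fixed by the whole inertia group. -/
def MultFixed (W : WeierstrassCurve ℤ) : Prop :=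
  ∀ q : ℕ, q.Prime → (q : ℤ) ∣ W.Δ → ¬ (q : ℤ) ∣ W.c₄ → ∀ n : ℕ, Odd n → ¬ q ∣ n →
    ∀ A : ValuationSubring Qb, A.LiesOverPrime q →
      ∃ P : ((WQ W)⁄Qb).Point, addOrderOf P = n ∧ ∀ σ ∈ A.inertiaSubgroupIn ℚ, σ • P = P

/-! ### Block `Cmp`: comparison of an adic representation with the Tate module -/

/-- `ρ` has the Frobenius characteristic polynomials of `W` outside the finite set `S₀`. -/
def AttachedToW (W : WeierstrassCurve ℤ) {O : Type} [CommRing O] [IsLocalRing O]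
    (ρ : GaloisRepAdic O) (S₀ : Finset ℕ) : Prop :=
  ∀ ℓ : ℕ, ℓ.Prime → ℓ ∉ S₀ → ∀ A : ValuationSubring Qb, A.LiesOverPrime ℓ →
    ∀ σ : GQ, A.IsFrobeniusAt σ ℓ →
      LinearMap.charpoly (ρ.ρ σ) =
        X ^ 2 - C (((W.apOfModel ℓ : ℤ) : O)) * X + C ((ℓ : ℕ) : O)

/-- **Cmp (C1).**  A representation attached to `W` over a complete dvr `O` of residue
characteristic `lam` has, for EVERY `σ`, the characteristic polynomial of `T_lam` (transported
along a ring homomorphism `ℤ_[lam] → O`). -/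
def CmpCharpoly (W : WeierstrassCurve ℤ) (T : TateFam) : Prop :=
  ∀ (lam : ℕ) [Fact lam.Prime] (O : Type) [CommRing O] [IsDomain O] [IsDiscreteValuationRing O]
    [IsAdicComplete (IsLocalRing.maximalIdeal O) O] [Finite (IsLocalRing.ResidueField O)]
    [CharZero O], (lam : O) ∈ IsLocalRing.maximalIdeal O →
    ∀ (ρ : GaloisRepAdic O) (S₀ : Finset ℕ), AttachedToW W ρ S₀ →
      ∃ ι : ℤ_[lam] →+* O, ∀ σ : GQ,
        LinearMap.charpoly (ρ.ρ σ) = (LinearMap.charpoly ((T lam).ρ σ)).map ι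

/-- **Cmp (C2–C4), residual.**  If `W[p]` is irreducible (`p` odd) then every representation
attached to `W` is residually absolutely irreducible. -/
def CmpRes (W : WeierstrassCurve ℤ) : Prop :=
  ∀ (p : ℕ) [Fact p.Prime], p ≠ 2 → W.ModRepIsIrreducible p →
    ∀ (O : Type) [CommRing O] [IsDomain O] [IsDiscreteValuationRing O]
    [IsAdicComplete (IsLocalRing.maximalIdeal O) O] [Finite (IsLocalRing.ResidueField O)]
    [CharZero O], (p : O) ∈ IsLocalRing.maximalIdeal O →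
    ∀ (ρ : GaloisRepAdic O) (S₀ : Finset ℕ), AttachedToW W ρ S₀ →
      ρ.residual.IsAbsolutelyIrreducible

/-! ### Block `Mod`: the modular side -/

/-- **Eigen data**: for an eigenform `g`, a prime `lam` and a finite set `S` of primes there is a
complete dvr `O'` of residue characteristic `lam` receiving the eigencharacter of `g`. -/
def EigenData : Prop :=
  ∀ (M : ℕ) [NeZero M] (g : CuspForm (CongruenceSubgroup.Gamma0 M) 2), g.IsNormalizedEigenform →
    ∀ (lam : ℕ) [Fact lam.Prime] (S : Finset ℕ), (∀ q : ℕ, q.Prime → q ∣ M → q ∈ S) →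
    ∃ (O' : Type) (_ : CommRing O') (_ : IsDomain O') (_ : IsDiscreteValuationRing O')
      (_ : IsAdicComplete (IsLocalRing.maximalIdeal O') O')
      (_ : Finite (IsLocalRing.ResidueField O')) (_ : CharZero O'),
      (lam : O') ∈ IsLocalRing.maximalIdeal O' ∧
      ∃ chig : CuspForm.heckeAlgebra M 2 (↑S : Set ℕ) →+* ℂ,
        (∀ (ℓ : ℕ) (hℓ : ℓ.Prime) (hℓM : ¬ ℓ ∣ M) (hℓS : ℓ ∉ (↑S : Set ℕ)),
          chig (CuspForm.heckeAlgebra.T hℓ hℓM hℓS) = ModularFormClass.qCoeff g ℓ) ∧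
        ∃ iota : chig.range →+* O', Function.Injective iota

/-- **Trivial bounds on the point count**: `a_ℓ(W) ≠ ±(ℓ+1)`. -/
def ApBound : Prop :=
  ∀ (W : WeierstrassCurve ℤ) (ℓ : ℕ), ℓ.Prime →
    W.apOfModel ℓ ≠ (ℓ : ℤ) + 1 ∧ W.apOfModel ℓ ≠ -((ℓ : ℤ) + 1)

end Fermat.Agent.S58lib
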