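/-
S58 library (architect: helper4).  **Main: S58 from the interface `Prop`s.**

`W` semistable, `p` odd, `W[p]` irreducible, `W` modular of a level `N` with `p² ∤ N`, `q³ ∤ N`,
`N` divisible by all bad primes.  Then `W` is modular of level `rad Δ`.

Logic.  `(A)`: a newform `g` of level `M ∣ N` with `a_ℓ(g) = a_ℓ(W)` for `ℓ ∤ N`.
[1] `q² ∣ M` is impossible (Carayol S36 at `lam = p` against `TateUnip`);
[2] `q ∥ M` with `q` good for `W` is impossible (S35 at `lam ≠ q` against `TateFrob`, `ApBound`);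
[3] hence `M ∣ rad Δ`; [4] `a_ℓ(g) = a_ℓ(W)` for ALL good `ℓ`; [5] stabilise (`Stab`).
-/
import Fermat.Agent.S58lib.Interface
import Fermat.Agent.S58lib.Stab.Conductor
import Fermat.Agent.S58lib.Stab.MinLevel
import Fermat.Agent.S35
import Fermat.Agent.S36lib.S36Of
import Fermat.Agent.S36lib.J.Close
import Fermat.Agent.Helper5.FrobExists

set_option autoImplicit false
set_option linter.style.haveILetI false
set_option linter.unusedSectionVars false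

noncomputable section

namespace Fermat.Agent.S58lib

open WeierstrassCurve Polynomial CuspForm

/-! ### small lemmas -/

/-- comparing the linear coefficients of two monic quadratics. -/
theorem quad_coeff_one_eq {R : Type*} [CommRing R] {a b c d : R}
    (h : (X : R[X]) ^ 2 - C a * X + C b = X ^ 2 - C c * X + C d) : a = c := by
  have h1 := congrArg (fun P : R[X] => P.coeff 1) h
  simp only [coeff_add, coeff_sub, coeff_X_pow, coeff_C_mul, coeff_X_one, coeff_C] at h1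
  simpa using h1

/-- the same with a `+` in the second quadratic. -/
theorem quad_coeff_one_eq_neg {R : Type*} [CommRing R] {a b c d : R}
    (h : (X : R[X]) ^ 2 - C a * X + C b = X ^ 2 + C c * X + C d) : a = -c := by
  have h' : (X : R[X]) ^ 2 - C a * X + C b = X ^ 2 - C (-c) * X + C d := by
    rw [h, map_neg]; ring
  exact quad_coeff_one_eq h'

/-- the image of `X² - aX + b` (integer coefficients) under a ring homomorphism. -/
theorem map_quad_int {R S : Type*} [CommRing R] [CommRing S] (ι : R →+* S) (a : ℤ) (b : ℕ) :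
    ((X : R[X]) ^ 2 - C (a : R) * X + C (b : R)).map ι = X ^ 2 - C (a : S) * X + C (b : S) := by
  rw [Polynomial.map_add, Polynomial.map_sub, Polynomial.map_mul, Polynomial.map_pow,
    Polynomial.map_X, Polynomial.map_C, Polynomial.map_C, map_intCast, map_natCast]

/-- `Δ ≠ 0` and `N ≠ 0` from the hypotheses of S58. -/
theorem delta_ne_zero_of_bad {W : WeierstrassCurve ℤ} {N : ℕ}
    (hbad : ∀ ℓ : ℕ, ℓ.Prime → (ℓ : ℤ) ∣ W.Δ → ℓ ∣ N) (hN3 : ∀ q : ℕ, q.Prime → ¬ q ^ 3 ∣ N) :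
    W.Δ ≠ 0 ∧ N ≠ 0 := by
  have hN0 : N ≠ 0 := by
    rintro rfl
    exact hN3 2 Nat.prime_two (dvd_zero _)
  refine ⟨fun hΔ => ?_, hN0⟩
  obtain ⟨ℓ, hℓN, hℓ⟩ := Nat.exists_infinite_primes (N + 1)
  have h1 : ℓ ∣ N := hbad ℓ hℓ (by rw [hΔ]; exact dvd_zero _)
  have h2 : ℓ ≤ N := Nat.le_of_dvd (Nat.pos_of_ne_zero hN0) h1
  omega

/-- a squarefree number all of whose prime divisors divide `R` divides `R`. -/
theorem dvd_of_squarefree_of_forall_prime {M R : ℕ} (hM : Squarefree M)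
    (h : ∀ q : ℕ, q.Prime → q ∣ M → q ∣ R) : M ∣ R := by
  rw [← Nat.prod_primeFactors_of_squarefree hM]
  exact Finset.prod_primes_dvd R (fun q hq => (Nat.prime_of_mem_primeFactors hq).prime)
    (fun q hq => h q (Nat.prime_of_mem_primeFactors hq) (Nat.dvd_of_mem_primeFactors hq))

/-! ### the comparison lemma: attached to `g` ⇒ attached to `W` -/

section Attached

variable {W : WeierstrassCurve ℤ} {N M : ℕ} [NeZero M]
  {g : CuspForm (CongruenceSubgroup.Gamma0 M) 2} {S : Finset ℕ}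
  {O' : Type} [CommRing O'] {O'' : Type} [CommRing O''] [IsLocalRing O''] [Algebra O' O'']

/-- the value of `iota ∘ chig` at a Hecke operator whose eigenvalue is the integer `a`. -/
theorem algebraMap_iota_eq_intCast
    (chig : CuspForm.heckeAlgebra M 2 (↑S : Set ℕ) →+* ℂ) (iota : chig.range →+* O')
    (t : CuspForm.heckeAlgebra M 2 (↑S : Set ℕ)) (a : ℤ) (h : chig t = (a : ℂ)) :
    algebraMap O' O'' ((iota.comp chig.rangeRestrict) t) = (a : O'') := by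
  have h1 : chig.rangeRestrict t = ((a : ℤ) : chig.range) := by
    apply Subtype.ext
    rw [RingHom.coe_rangeRestrict, h]
    simp
  rw [RingHom.comp_apply, h1, map_intCast, map_intCast]

/-- a representation attached to `g` is attached to `W` away from `S ∪ primes(N)`. -/
theorem attachedToW_of_attached (hN0 : N ≠ 0) (hMN : M ∣ N)
    (hgW : ∀ ℓ : ℕ, ℓ.Prime → ¬ ℓ ∣ N → ModularFormClass.qCoeff g ℓ = (W.apOfModel ℓ : ℂ))
    (chig : CuspForm.heckeAlgebra M 2 (↑S : Set ℕ) →+* ℂ)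
    (hchig : ∀ (ℓ : ℕ) (hℓ : ℓ.Prime) (hℓM : ¬ ℓ ∣ M) (hℓS : ℓ ∉ (↑S : Set ℕ)),
      chig (CuspForm.heckeAlgebra.T hℓ hℓM hℓS) = ModularFormClass.qCoeff g ℓ)
    (iota : chig.range →+* O') (ρ : GaloisRepAdic O'') (lam : ℕ)
    (hatt : ∀ (ℓ : ℕ) (hℓ : ℓ.Prime) (_ : ℓ ≠ lam) (hℓM : ¬ ℓ ∣ M) (hℓS : ℓ ∉ (↑S : Set ℕ)),
      ∀ A : ValuationSubring (AlgebraicClosure ℚ), A.LiesOverPrime ℓ →
        ∀ σ : AlgebraicClosure ℚ ≃ₐ[ℚ] AlgebraicClosure ℚ, A.IsFrobeniusAt σ ℓ →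
          LinearMap.charpoly (ρ.ρ σ) =
            X ^ 2 - C (algebraMap O' O'' ((iota.comp chig.rangeRestrict)
              (CuspForm.heckeAlgebra.T hℓ hℓM hℓS))) * X + C ((ℓ : O''))) :
    AttachedToW W ρ (insert lam (S ∪ N.primeFactors)) := by
  intro ℓ hℓ hℓS₀ A hA σ hσ
  have hℓlam : ℓ ≠ lam := fun h => hℓS₀ (h ▸ Finset.mem_insert_self _ _)
  have hℓS : ℓ ∉ (↑S : Set ℕ) := fun h =>
    hℓS₀ (Finset.mem_insert_of_mem (Finset.mem_union_left _ (Finset.mem_coe.mp h)))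
  have hℓN : ¬ ℓ ∣ N := fun h =>
    hℓS₀ (Finset.mem_insert_of_mem (Finset.mem_union_right _
      (Nat.mem_primeFactors.mpr ⟨hℓ, h, hN0⟩)))
  have hℓM : ¬ ℓ ∣ M := fun h => hℓN (h.trans hMN)
  rw [hatt ℓ hℓ hℓlam hℓM hℓS A hA σ hσ,
    algebraMap_iota_eq_intCast chig iota _ (W.apOfModel ℓ)
      ((hchig ℓ hℓ hℓM hℓS).trans (hgW ℓ hℓ hℓN))]

end Attached

/-- `lam ∈ 𝔪_{O''}` from `lam ∈ 𝔪_{O'}` along a local homomorphism. -/
theorem natCast_mem_maximalIdeal_of_isLocalHom {O' O'' : Type} [CommRing O'] [IsLocalRing O']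
    [CommRing O''] [IsLocalRing O''] [Algebra O' O''] [IsLocalHom (algebraMap O' O'')] {lam : ℕ}
    (h : (lam : O') ∈ IsLocalRing.maximalIdeal O') :
    (lam : O'') ∈ IsLocalRing.maximalIdeal O'' := by
  have h1 : (lam : O'') = algebraMap O' O'' (lam : O') := (map_natCast _ lam).symm
  rw [h1]
  exact map_nonunit (algebraMap O' O'') _ h

/-! ### Step 1: the level of the newform is squarefree -/

section Steps

variable (W : WeierstrassCurve ℤ) (T : TateFam)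

/-- **Step 1.** `q² ∤ M`. -/
theorem not_sq_dvd_level (hTU : TateUnip T)
    (hCC : CmpCharpoly W T) (hCR : CmpRes W) (hED : EigenData)
    {N : ℕ} (hN0 : N ≠ 0) (p : ℕ) [Fact p.Prime] (hp2 : p ≠ 2)
    (hirr : W.ModRepIsIrreducible p) (hp2N : ¬ p ^ 2 ∣ N)
    (hN3 : ∀ q : ℕ, q.Prime → ¬ q ^ 3 ∣ N)
    {M : ℕ} [NeZero M] (hMN : M ∣ N) {g : CuspForm (CongruenceSubgroup.Gamma0 M) 2}
    (hg : g.IsNewform)
    (hgW : ∀ ℓ : ℕ, ℓ.Prime → ¬ ℓ ∣ N → ModularFormClass.qCoeff g ℓ = (W.apOfModel ℓ : ℂ))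
    (q : ℕ) (hq : q.Prime) : ¬ q ^ 2 ∣ M := by
  intro hq2
  have hp : p.Prime := Fact.out
  have hM0 : M ≠ 0 := NeZero.ne M
  have hqp : q ≠ p := by
    rintro rfl
    exact hp2N (hq2.trans hMN)
  have hfact : M.factorization q = 2 := by
    have h2 : 2 ≤ M.factorization q := (hq.pow_dvd_iff_le_factorization hM0).mp hq2
    have h3 : ¬ 3 ≤ M.factorization q := fun h =>
      hN3 q hq (((hq.pow_dvd_iff_le_factorization hM0).mpr h).trans hMN)
    omega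
  set S : Finset ℕ := insert p N.primeFactors with hS
  have hpS : p ∈ S := Finset.mem_insert_self _ _
  have hMS : ∀ q' : ℕ, q'.Prime → q' ∣ M → q' ∈ S := fun q' hq' hq'M =>
    Finset.mem_insert_of_mem (Nat.mem_primeFactors.mpr ⟨hq', hq'M.trans hMN, hN0⟩)
  obtain ⟨O', _, _, _, _, _, _, hpO', chig, hchig, iota, -⟩ := hED M g hg.1 p S hMS
  have hS₀ : insert p (S ∪ N.primeFactors) = S := by
    ext x
    simp only [hS, Finset.mem_insert, Finset.mem_union]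
    tauto
  obtain ⟨O'', _, _, _, _, _, _, _, _, _, -, ρ, hatt, hnot⟩ :=
    Fermat.Agent.S36lib.s36_of_inertiaKill p M hg.1
      (Fermat.Agent.S36lib.J.inertiaKillTors_all hp hg) S hpS hMS O' hpO' chig hchig iota
      (by
        intro O₂ _ _ _ _ _ _ _ _ _ _ ρ₂ hatt₂
        have hA₂ : AttachedToW W ρ₂ S :=
          hS₀ ▸ attachedToW_of_attached hN0 hMN hgW chig hchig iota ρ₂ p hatt₂
        exact hCR p hp2 hirr O₂ (natCast_mem_maximalIdeal_of_isLocalHom hpO') ρ₂ S hA₂)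
  have hA : AttachedToW W ρ S :=
    hS₀ ▸ attachedToW_of_attached hN0 hMN hgW chig hchig iota ρ p
      (fun ℓ hℓ _ hℓM hℓS => hatt ℓ hℓ hℓM hℓS)
  obtain ⟨ι, hι⟩ := hCC p O'' (natCast_mem_maximalIdeal_of_isLocalHom hpO') ρ S hA
  refine hnot q hq hqp hfact ?_
  intro P hP σ hσ
  rw [hι σ, hTU p hp2 q hq hqp P hP σ hσ]
  simp

/-! ### Step 2: the primes of the level are bad primes of `W` -/

/-- an auxiliary prime `lam ∈ {2, 3}` different from `q`. -/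
theorem exists_aux_prime (q : ℕ) : ∃ lam : ℕ, lam.Prime ∧ q ≠ lam := by
  by_cases h : q = 2
  · exact ⟨3, Nat.prime_three, by omega⟩
  · exact ⟨2, Nat.prime_two, h⟩

/-- **Step 2.** a prime `q ∥ M` divides `Δ`. -/
theorem dvd_delta_of_dvd_level (hTF : TateFrob W T)
    (hCC : CmpCharpoly W T) (hED : EigenData) (hAB : ApBound)
    {N : ℕ} (hN0 : N ≠ 0)
    {M : ℕ} [NeZero M] (hMN : M ∣ N) {g : CuspForm (CongruenceSubgroup.Gamma0 M) 2}
    (hg : g.IsNewform)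
    (hgW : ∀ ℓ : ℕ, ℓ.Prime → ¬ ℓ ∣ N → ModularFormClass.qCoeff g ℓ = (W.apOfModel ℓ : ℂ))
    (q : ℕ) (hq : q.Prime) (hqM : q ∣ M) (hq2 : ¬ q ^ 2 ∣ M) : (q : ℤ) ∣ W.Δ := by
  by_contra hgood
  obtain ⟨lam, hlam, hqlam⟩ := exists_aux_prime q
  haveI : Fact lam.Prime := ⟨hlam⟩
  set S : Finset ℕ := insert lam N.primeFactors with hS
  have hlamS : lam ∈ S := Finset.mem_insert_self _ _
  have hMS : ∀ q' : ℕ, q'.Prime → q' ∣ M → q' ∈ S := fun q' hq' hq'M =>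
    Finset.mem_insert_of_mem (Nat.mem_primeFactors.mpr ⟨hq', hq'M.trans hMN, hN0⟩)
  obtain ⟨O', _, _, _, _, _, _, hlamO', chig, hchig, iota, -⟩ := hED M g hg.1 lam S hMS
  have hS₀ : insert lam (S ∪ N.primeFactors) = S := by
    ext x
    simp only [hS, Finset.mem_insert, Finset.mem_union]
    tauto
  obtain ⟨O'', _, _, _, _, _, _, _, _, _, -, ρ, hatt, hfrob⟩ :=
    Fermat.Agent.S35.result hg lam S O' hlamO' chig hchig iota hlamS hMS
  have hA : AttachedToW W ρ S :=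
    hS₀ ▸ attachedToW_of_attached hN0 hMN hgW chig hchig iota ρ lam
      (fun ℓ hℓ _ hℓM hℓS => hatt ℓ hℓ hℓM hℓS)
  obtain ⟨ι, hι⟩ := hCC lam O'' (natCast_mem_maximalIdeal_of_isLocalHom hlamO') ρ S hA
  obtain ⟨A, σ, hAq, hσ⟩ := Fermat.Agent.Helper5.exists_isFrobeniusAt q hq
  have h1 : LinearMap.charpoly (ρ.ρ σ) =
      X ^ 2 - C ((W.apOfModel q : ℤ) : O'') * X + C ((q : ℕ) : O'') := by
    rw [hι σ, hTF lam q hq hqlam hgood A hAq σ hσ, map_quad_int]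
  obtain ⟨hab1, hab2⟩ := hAB W q hq
  rcases hfrob q hq hqlam hqM hq2 A hAq σ hσ with h2 | h2
  · have h3 : ((W.apOfModel q : ℤ) : O'') = (q : O'') + 1 := quad_coeff_one_eq (h1.symm.trans h2)
    apply hab1
    have h4 : ((W.apOfModel q : ℤ) : O'') = (((q : ℤ) + 1 : ℤ) : O'') := by
      rw [h3]; push_cast; rfl
    exact Int.cast_injective h4
  · have h3 : ((W.apOfModel q : ℤ) : O'') = -((q : O'') + 1) :=
      quad_coeff_one_eq_neg (h1.symm.trans h2)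
    apply hab2
    have h4 : ((W.apOfModel q : ℤ) : O'') = ((-((q : ℤ) + 1) : ℤ) : O'') := by
      rw [h3]; push_cast; rfl
    exact Int.cast_injective h4

/-! ### Step 4: the coefficients at the good primes dividing `N` -/

/-- **Step 4.** `a_ℓ(g) = a_ℓ(W)` at a good prime `ℓ ∤ M`. -/
theorem qCoeff_eq_of_good (hTF : TateFrob W T)
    (hCC : CmpCharpoly W T) (hED : EigenData)
    {N : ℕ} (hN0 : N ≠ 0)
    {M : ℕ} [NeZero M] (hMN : M ∣ N) {g : CuspForm (CongruenceSubgroup.Gamma0 M) 2}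
    (hg : g.IsNewform)
    (hgW : ∀ ℓ : ℕ, ℓ.Prime → ¬ ℓ ∣ N → ModularFormClass.qCoeff g ℓ = (W.apOfModel ℓ : ℂ))
    (ℓ : ℕ) (hℓ : ℓ.Prime) (hℓM : ¬ ℓ ∣ M) (hgood : ¬ (ℓ : ℤ) ∣ W.Δ) :
    ModularFormClass.qCoeff g ℓ = (W.apOfModel ℓ : ℂ) := by
  obtain ⟨lam, hlam, hℓlam⟩ := exists_aux_prime ℓ
  haveI : Fact lam.Prime := ⟨hlam⟩
  set S : Finset ℕ := insert lam M.primeFactors with hS
  have hM0 : M ≠ 0 := NeZero.ne M
  have hlamS : lam ∈ S := Finset.mem_insert_self _ _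
  have hMS : ∀ q' : ℕ, q'.Prime → q' ∣ M → q' ∈ S := fun q' hq' hq'M =>
    Finset.mem_insert_of_mem (Nat.mem_primeFactors.mpr ⟨hq', hq'M, hM0⟩)
  have hℓS : ℓ ∉ (↑S : Set ℕ) := by
    intro h
    rcases Finset.mem_insert.mp (Finset.mem_coe.mp h) with h | h
    · exact hℓlam h
    · exact hℓM (Nat.dvd_of_mem_primeFactors h)
  obtain ⟨O', _, _, _, _, _, _, hlamO', chig, hchig, iota, hinj⟩ := hED M g hg.1 lam S hMS
  obtain ⟨O'', _, _, _, _, _, _, _, _, _, hinj'', ρ, hatt, -⟩ :=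
    Fermat.Agent.S35.result hg lam S O' hlamO' chig hchig iota hlamS hMS
  have hA : AttachedToW W ρ (insert lam (S ∪ N.primeFactors)) :=
    attachedToW_of_attached hN0 hMN hgW chig hchig iota ρ lam
      (fun ℓ hℓ _ hℓM hℓS => hatt ℓ hℓ hℓM hℓS)
  obtain ⟨ι, hι⟩ := hCC lam O'' (natCast_mem_maximalIdeal_of_isLocalHom hlamO') ρ _ hA
  obtain ⟨A, σ, hAℓ, hσ⟩ := Fermat.Agent.Helper5.exists_isFrobeniusAt ℓ hℓ
  have h1 : LinearMap.charpoly (ρ.ρ σ) =
      X ^ 2 - C ((W.apOfModel ℓ : ℤ) : O'') * X + C ((ℓ : ℕ) : O'') := by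
    rw [hι σ, hTF lam ℓ hℓ hℓlam hgood A hAℓ σ hσ, map_quad_int]
  have h2 := hatt ℓ hℓ hℓM hℓS A hAℓ σ hσ
  have h3 : algebraMap O' O'' ((iota.comp chig.rangeRestrict)
      (CuspForm.heckeAlgebra.T hℓ hℓM hℓS)) = ((W.apOfModel ℓ : ℤ) : O'') :=
    quad_coeff_one_eq (h2.symm.trans h1)
  have h4 : chig.rangeRestrict (CuspForm.heckeAlgebra.T hℓ hℓM hℓS) =
      ((W.apOfModel ℓ : ℤ) : chig.range) := by
    apply hinj
    apply hinj''
    rw [map_intCast, map_intCast]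
    exact h3
  have h5 := congrArg (fun x : chig.range => (x : ℂ)) h4
  simp only [RingHom.coe_rangeRestrict] at h5
  rw [← hchig ℓ hℓ hℓM hℓS, h5]
  simp

end Steps

/-! ### the main theorem -/

/-- **S58 from the interface.** -/
theorem s58_of_interface (W : WeierstrassCurve ℤ) (T : TateFam)
    (hTF : TateFrob W T) (hTU : W.Δ ≠ 0 → W.IsSemistableModel → TateUnip T)
    (hCC : W.Δ ≠ 0 → CmpCharpoly W T) (hCR : W.Δ ≠ 0 → CmpRes W)
    (hED : EigenData) (hAB : ApBound)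
    (hss : W.IsSemistableModel) (N : ℕ)
    (p : ℕ) [Fact p.Prime] (hp2 : p ≠ 2) (hirr : W.ModRepIsIrreducible p)
    (hp2N : ¬ p ^ 2 ∣ N)
    (hN : W.IsModularModelOfLevel N) (hbad : ∀ ℓ : ℕ, ℓ.Prime → (ℓ : ℤ) ∣ W.Δ → ℓ ∣ N)
    (hN3 : ∀ q : ℕ, q.Prime → ¬ q ^ 3 ∣ N) :
    W.IsModularModelOfLevel W.conductorLevel := by
  obtain ⟨hΔ, hN0⟩ := delta_ne_zero_of_bad hbad hN3
  obtain ⟨f, hf, hfW⟩ := hN
  obtain ⟨M, hMN, g, hg, hgf⟩ := Stab.exists_isNewform_of_isNormalizedEigenform hN0 f hf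
  have hM0 : M ≠ 0 := fun h => hN0 (by rw [h] at hMN; exact zero_dvd_iff.mp hMN)
  haveI : NeZero M := ⟨hM0⟩
  have hgW : ∀ ℓ : ℕ, ℓ.Prime → ¬ ℓ ∣ N →
      ModularFormClass.qCoeff g ℓ = (W.apOfModel ℓ : ℂ) := fun ℓ hℓ hℓN =>
    (hgf ℓ hℓ hℓN).trans (hfW ℓ hℓ (fun h => hℓN (hbad ℓ hℓ h)) hℓN)
  -- Step 1
  have h1 : ∀ q : ℕ, q.Prime → ¬ q ^ 2 ∣ M := fun q hq =>
    not_sq_dvd_level W T (hTU hΔ hss) (hCC hΔ) (hCR hΔ) hED hN0 p hp2 hirr hp2N hN3 hMN hg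
      hgW q hq
  -- Step 2
  have h2 : ∀ q : ℕ, q.Prime → q ∣ M → (q : ℤ) ∣ W.Δ := fun q hq hqM =>
    dvd_delta_of_dvd_level W T hTF (hCC hΔ) hED hAB hN0 hMN hg hgW q hq hqM (h1 q hq)
  -- Step 3
  have hsf : Squarefree M := by
    rw [Nat.squarefree_iff_prime_squarefree]
    intro q hq hqq
    exact h1 q hq (by rwa [pow_two])
  have h3 : M ∣ W.conductorLevel :=
    dvd_of_squarefree_of_forall_prime hsf fun q hq hqM =>
      (W.prime_dvd_conductorLevel_iff hΔ hq).mpr (h2 q hq hqM)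
  -- Steps 4, 5
  refine Stab.isModularModelOfLevel_conductorLevel_of_dvd W h3 g hg.1 ?_
  intro ℓ hℓ hgood
  exact qCoeff_eq_of_good W T hTF (hCC hΔ) hED hN0 hMN hg hgW ℓ hℓ
    (fun h => hgood (h2 ℓ hℓ h)) hgood

end Fermat.Agent.S58lib
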