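/-
S58 library (architect: helper4).  **Assembly: S58 from `FrobCore` and `EigenData`.**

All other interface `Prop`s are discharged here:
* `TateFrob`  — helper6's `Tate.tateFrob_of_frobCore`;
* `TateUnip`  — `Tr.tateUnip_of_multFixed` with helper9's `Mult.exists_fixed_of_multiplicative`;
* `CmpCharpoly`, `CmpRes` — helper3's `Cmp.cmpCharpoly`, `Cmp.cmpRes`;
* `ApBound`   — lead's `Lead.apOfModel_ne`.
-/
import Fermat.Agent.S58lib.Main
import Fermat.Agent.S58lib.Tr.TateUnip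
import Fermat.Agent.S58lib.Cmp.Res
import Fermat.Agent.S58lib.Mult.Main
import Fermat.Agent.S58lib.Lead.PointCount

set_option autoImplicit false

noncomputable section

namespace Fermat.Agent.S58lib

open WeierstrassCurve

/-- block E2 in interface form. -/
theorem multFixed (W : WeierstrassCurve ℤ) (hΔ : W.Δ ≠ 0) : MultFixed W := by
  intro q hq hqΔ hc₄ n hn hnq A hA
  classical
  exact Mult.exists_fixed_of_multiplicative W hq hΔ hqΔ hc₄ hn hnq hA

/-- the trivial bound in interface form. -/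
theorem apBound : ApBound := fun W _ hℓ => Lead.apOfModel_ne W hℓ

/-- **S58 from `FrobCore` and `EigenData`.** -/
theorem s58_of_frobCore (hFC : FrobCore) (hED : EigenData)
    (W : WeierstrassCurve ℤ) (hss : W.IsSemistableModel) (N : ℕ)
    (p : ℕ) [Fact p.Prime] (hp2 : p ≠ 2) (hirr : W.ModRepIsIrreducible p)
    (hp2N : ¬ p ^ 2 ∣ N)
    (hN : W.IsModularModelOfLevel N) (hbad : ∀ ℓ : ℕ, ℓ.Prime → (ℓ : ℤ) ∣ W.Δ → ℓ ∣ N)
    (hN3 : ∀ q : ℕ, q.Prime → ¬ q ^ 3 ∣ N) :
    W.IsModularModelOfLevel W.conductorLevel := by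
  obtain ⟨hΔ, -⟩ := delta_ne_zero_of_bad hbad hN3
  have hTF : TateFrob W (Tate.tateFam W hΔ) := Tate.tateFrob_of_frobCore hFC W hΔ
  exact s58_of_interface W (Tate.tateFam W hΔ) hTF
    (fun _ hss' => Tr.tateUnip_of_multFixed W hΔ hss' (multFixed W hΔ) hTF)
    (fun _ => Cmp.cmpCharpoly W _ hΔ hTF) (fun _ => Cmp.cmpRes W hΔ hTF)
    hED apBound hss N p hp2 hirr hp2N hN hbad hN3

end Fermat.Agent.S58lib
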